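import Mathlib
import Fermat.Agent.FF.RHCoord
import Fermat.Agent.FF.DiffExp
import Fermat.Agent.X0.RR.SetupEOver

/-!
# SW / FFG (G0, G1): the genus from the ramification of a coordinate, characteristic zero

Coordinate context of `FF/RHCoord.lean` (`F` finite separable over `RatFunc K`, `K` algebraically
closed), with `CharZero K`, `n = [F : K(x)]`.

* `diffExp_Bf_eq`, `diffExp_Binf_eq` : every prime is tame, `d_v = e_v - 1`;
* `two_mul_genusFF_sub_two_tame` : Riemann–Hurwitz in the tame form
  `2 g - 2 = ∑ᶠ v, (e_v - 1) + ∑ᶠ w, (e_w - 1) - 2 n`;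
* `genusFF_eq_zero_of_ramified_le_two` (G1) : if `F / K(x)` is unramified outside a set `S` of at
  most two finite places (and unramified at infinity), then `genusFF K F = 0`;
* `genusFF_eq_zero_of_ramified_le_one_inf` (G1') : the same with at most one finite place and
  infinity;
* `finrank_eq_one_of_unramified` (G0) : an everywhere unramified `F / K(x)` is trivial.
-/

set_option autoImplicit false
set_option linter.unusedSectionVars false

open AlgebraicCurve Polynomial Module IsDedekindDomain FunctionField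

namespace Fermat.Agent.SW.FFG

open Fermat.Agent.X0.RR Fermat.Agent.FF

attribute [local instance] FractionRing.liftAlgebra FractionRing.isScalarTower_liftAlgebra
  Ideal.Quotient.field

variable (K F : Type*) [Field K] [Field F] [Algebra K F]
  [Algebra K[X] F] [Algebra (RatFunc K) F] [IsScalarTower K[X] (RatFunc K) F]
  [IsScalarTower K K[X] F] [IsScalarTower K (RatFunc K) F]
  [FunctionField K F] [Algebra.IsSeparable (RatFunc K) F] [IsAlgClosed K] [CharZero K]

/-- Tameness at the finite places: `d_v = e_v - 1`. -/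
theorem diffExp_Bf_eq (v : HeightOneSpectrum (Bf K F)) :
    diffExp K[X] v = eOver K[X] v - 1 := by
  have hsep := Bf.isSeparable_fractionRing K F
  have := v.isMaximal
  have hmax : (v.asIdeal.under K[X]).IsMaximal := Ideal.IsMaximal.under K[X] v.asIdeal
  have hchar : CharZero (K[X] ⧸ v.asIdeal.under K[X]) :=
    charZero_quotient_of_ne_top (k := K) (v.asIdeal.under K[X]) hmax.ne_top
  apply diffExp_eq_eOver_sub_one_of_tame
  rw [Nat.cast_ne_zero]
  have he : 1 ≤ eOver K[X] v := one_le_eOver K[X] v
  have hlies : v.asIdeal.LiesOver (v.asIdeal.under K[X]) := ⟨rfl⟩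
  have hf := Ideal.inertiaDeg'_pos (v.asIdeal.under K[X]) v.asIdeal
  rw [Ideal.inertiaDeg'_algebraMap] at hf
  exact Nat.mul_ne_zero (by omega) hf.ne'

/-- Tameness at the places at infinity: `d_w = e_w - 1`. -/
theorem diffExp_Binf_eq (w : HeightOneSpectrum (Binf K F)) :
    diffExp (Rinf K) w = eOver (Rinf K) w - 1 := by
  have hsep := Binf.isSeparable_fractionRing K F
  have := w.isMaximal
  have hmax : (w.asIdeal.under (Rinf K)).IsMaximal := Ideal.IsMaximal.under (Rinf K) w.asIdeal
  have hchar : CharZero (Rinf K ⧸ w.asIdeal.under (Rinf K)) :=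
    charZero_quotient_of_ne_top (k := K) (w.asIdeal.under (Rinf K)) hmax.ne_top
  apply diffExp_eq_eOver_sub_one_of_tame
  rw [Nat.cast_ne_zero]
  have he : 1 ≤ eOver (Rinf K) w := one_le_eOver (Rinf K) w
  have hlies : w.asIdeal.LiesOver (w.asIdeal.under (Rinf K)) := ⟨rfl⟩
  have hf := Ideal.inertiaDeg'_pos (w.asIdeal.under (Rinf K)) w.asIdeal
  rw [Ideal.inertiaDeg'_algebraMap] at hf
  exact Nat.mul_ne_zero (by omega) hf.ne'

/-- `1 ≤ n`. -/
theorem one_le_finrank : 1 ≤ finrank (RatFunc K) F := finrank_pos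

/-- The sum of the `e_w - 1` over the places at infinity is at most `n - 1`. -/
theorem finsum_diffExp_Binf_le :
    ∑ᶠ w : HeightOneSpectrum (Binf K F), (diffExp ↥(Rinf K) w : ℤ) ≤
      (finrank (RatFunc K) F : ℤ) - 1 := by
  classical
  let _ := Fintype.ofFinite (HeightOneSpectrum (Binf K F))
  have hsum := Binf.finsum_eOver_nat (K := K) (F := F)
  rw [finsum_eq_sum_of_fintype] at hsum ⊢
  have hne : Nonempty (HeightOneSpectrum (Binf K F)) := by
    by_contra h
    rw [not_nonempty_iff] at h
    rw [Finset.univ_eq_empty, Finset.sum_empty] at hsum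
    have := one_le_finrank K F
    omega
  have hcard : 1 ≤ (Finset.univ : Finset (HeightOneSpectrum (Binf K F))).card :=
    Finset.card_pos.mpr Finset.univ_nonempty
  have h1 : ∑ w : HeightOneSpectrum (Binf K F), (diffExp ↥(Rinf K) w : ℤ) =
      ∑ w : HeightOneSpectrum (Binf K F), ((eOver (Rinf K) w : ℤ) - 1) := by
    refine Finset.sum_congr rfl fun w _ => ?_
    rw [diffExp_Binf_eq]
    have := one_le_eOver (Rinf K) w
    omega
  rw [h1, Finset.sum_sub_distrib, ← Nat.cast_sum, hsum]
  simp only [Finset.sum_const, nsmul_eq_mul, mul_one]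
  have : (1 : ℤ) ≤ ((Finset.univ : Finset (HeightOneSpectrum (Binf K F))).card : ℤ) := by
    exact_mod_cast hcard
  omega

/-- If `F / K(x)` is unramified at infinity the different at infinity is trivial. -/
theorem finsum_diffExp_Binf_eq_zero
    (hinf : ∀ w : HeightOneSpectrum (Binf K F), eOver (Rinf K) w = 1) :
    ∑ᶠ w : HeightOneSpectrum (Binf K F), (diffExp ↥(Rinf K) w : ℤ) = 0 := by
  have : ∀ w : HeightOneSpectrum (Binf K F), (diffExp ↥(Rinf K) w : ℤ) = 0 := by
    intro w
    rw [diffExp_Binf_eq, hinf w]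
    rfl
  simp only [this, finsum_zero]

/-- The sum of the `e_v - 1` over a finite set of primes of `Bf` lying over the same prime `p` of
`K[X]` is at most `n - 1`. -/
theorem sum_eOver_sub_one_le (p : Ideal K[X]) (T : Finset (HeightOneSpectrum (Bf K F)))
    (hT : ∀ v ∈ T, v.asIdeal.under K[X] = p) :
    ∑ v ∈ T, (eOver K[X] v - 1) ≤ finrank (RatFunc K) F - 1 := by
  classical
  rcases T.eq_empty_or_nonempty with rfl | ⟨v0, hv0⟩
  · simp
  have hp : p.IsMaximal := by
    rw [← hT v0 hv0]
    have := v0.isMaximal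
    exact Ideal.IsMaximal.under K[X] v0.asIdeal
  let φ : {v // v ∈ T} → p.primesOver (Bf K F) := fun v =>
    ⟨v.1.asIdeal, v.1.isPrime, ⟨(hT v.1 v.2).symm⟩⟩
  have hφ : Function.Injective φ := by
    intro a b hab
    have h1 : a.1.asIdeal = b.1.asIdeal := congrArg (fun P : p.primesOver (Bf K F) => P.1) hab
    exact Subtype.ext (HeightOneSpectrum.ext h1)
  have h1 : ∑ v ∈ T, eOver K[X] v = ∑ v ∈ T.attach, (φ v).1.ramificationIdx K[X] := by
    rw [← Finset.sum_attach]
    refine Finset.sum_congr rfl fun v _ => ?_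
    rw [eOver_eq_ramificationIdx]
  have h2 : ∑ v ∈ T.attach, (φ v).1.ramificationIdx K[X] =
      ∑ P ∈ T.attach.image φ, P.1.ramificationIdx K[X] :=
    (Finset.sum_image (s := T.attach) (g := φ)
      (f := fun P : p.primesOver (Bf K F) => P.1.ramificationIdx K[X])
      (fun _ _ _ _ h => hφ h)).symm
  have h3 : ∑ P ∈ T.attach.image φ, P.1.ramificationIdx K[X] ≤
      ∑ P : p.primesOver (Bf K F), P.1.ramificationIdx K[X] :=
    Finset.sum_le_sum_of_subset (Finset.subset_univ _)
  rw [Bf.sum_ramificationIdx] at h3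
  have h4 : ∑ v ∈ T, (eOver K[X] v - 1) + T.card = ∑ v ∈ T, eOver K[X] v := by
    rw [Finset.card_eq_sum_ones, ← Finset.sum_add_distrib]
    refine Finset.sum_congr rfl fun v _ => ?_
    have := one_le_eOver K[X] v
    omega
  have h5 : 1 ≤ T.card := Finset.card_pos.mpr ⟨v0, hv0⟩
  omega

/-- The different of `Bf / K[X]` has finite support. -/
theorem finite_support_diffExp_Bf :
    (Function.support fun v : HeightOneSpectrum (Bf K F) => (diffExp K[X] v : ℤ)).Finite := by
  classical
  have hsep := Bf.isSeparable_fractionRing K F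
  have hne : differentIdeal K[X] (Bf K F) ≠ ⊥ := differentIdeal_ne_bot
  refine (Ideal.finite_factors hne).subset ?_
  intro v hv
  rw [Function.mem_support, Ne, Nat.cast_eq_zero] at hv
  have h1 : 1 ≤ diffExp K[X] v := Nat.one_le_iff_ne_zero.mpr hv
  have h2 := (pow_dvd_differentIdeal_iff K[X] v 1).mpr h1
  rwa [pow_one] at h2

/-- **The finite part of the different.** If `F / K(x)` is unramified outside the finite set `S`
of primes of `K[X]`, then `∑ᶠ v, d_v ≤ |S| (n - 1)`. -/
theorem finsum_diffExp_Bf_le (S : Finset (Ideal K[X]))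
    (hS : ∀ v : HeightOneSpectrum (Bf K F), v.asIdeal.under K[X] ∉ S → eOver K[X] v = 1) :
    ∑ᶠ v : HeightOneSpectrum (Bf K F), (diffExp K[X] v : ℤ) ≤
      (S.card : ℤ) * ((finrank (RatFunc K) F : ℤ) - 1) := by
  classical
  have hfin := finite_support_diffExp_Bf K F
  rw [finsum_eq_sum_of_support_subset (s := hfin.toFinset) _ (by simp)]
  set T := hfin.toFinset with hTdef
  have hmaps : ∀ v ∈ T, v.asIdeal.under K[X] ∈ S := by
    intro v hv
    by_contra hnot
    rw [hTdef, Set.Finite.mem_toFinset, Function.mem_support, diffExp_Bf_eq, hS v hnot] at hv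
    exact hv rfl
  rw [← Finset.sum_fiberwise_of_maps_to hmaps]
  have hn := one_le_finrank K F
  calc ∑ p ∈ S, ∑ v ∈ T with v.asIdeal.under K[X] = p, (diffExp K[X] v : ℤ)
      ≤ ∑ _p ∈ S, ((finrank (RatFunc K) F : ℤ) - 1) := by
        refine Finset.sum_le_sum fun p _ => ?_
        have h1 := sum_eOver_sub_one_le K F p (T.filter fun v => v.asIdeal.under K[X] = p)
          (fun v hv => (Finset.mem_filter.mp hv).2)
        have h2 : ∑ v ∈ T with v.asIdeal.under K[X] = p, (diffExp K[X] v : ℤ) =
            ((∑ v ∈ T with v.asIdeal.under K[X] = p, (eOver K[X] v - 1) : ℕ) : ℤ) := by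
          rw [Nat.cast_sum]
          refine Finset.sum_congr rfl fun v _ => ?_
          rw [diffExp_Bf_eq]
        rw [h2]
        omega
    _ = (S.card : ℤ) * ((finrank (RatFunc K) F : ℤ) - 1) := by
        rw [Finset.sum_const, nsmul_eq_mul]

theorem finsum_diffExp_Bf_nonneg :
    0 ≤ ∑ᶠ v : HeightOneSpectrum (Bf K F), (diffExp K[X] v : ℤ) :=
  finsum_nonneg fun _ => Int.natCast_nonneg _

/-- **(G1)** If `F / K(x)` is unramified outside a set `S` of at most two finite places and
unramified at infinity, then `F` has genus zero. -/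
theorem genusFF_eq_zero_of_ramified_le_two (S : Finset (Ideal K[X])) (hcard : S.card ≤ 2)
    (hS : ∀ v : HeightOneSpectrum (Bf K F), v.asIdeal.under K[X] ∉ S → eOver K[X] v = 1)
    (hinf : ∀ w : HeightOneSpectrum (Binf K F), eOver (Rinf K) w = 1) :
    genusFF K F = 0 := by
  have hRH := RRDiff.two_mul_genusFF_sub_two_coord K F
  have h1 := finsum_diffExp_Bf_le K F S hS
  have h2 := finsum_diffExp_Binf_eq_zero K F hinf
  have hn := one_le_finrank K F
  have h3 : (S.card : ℤ) * ((finrank (RatFunc K) F : ℤ) - 1) ≤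
      2 * ((finrank (RatFunc K) F : ℤ) - 1) := by
    refine mul_le_mul_of_nonneg_right (by exact_mod_cast hcard) ?_
    have : (1 : ℤ) ≤ (finrank (RatFunc K) F : ℤ) := by exact_mod_cast hn
    omega
  omega

/-- **(G1')** If `F / K(x)` is unramified outside at most one finite place (and possibly ramified
at infinity), then `F` has genus zero. -/
theorem genusFF_eq_zero_of_ramified_le_one_inf (S : Finset (Ideal K[X])) (hcard : S.card ≤ 1)
    (hS : ∀ v : HeightOneSpectrum (Bf K F), v.asIdeal.under K[X] ∉ S → eOver K[X] v = 1) :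
    genusFF K F = 0 := by
  have hRH := RRDiff.two_mul_genusFF_sub_two_coord K F
  have h1 := finsum_diffExp_Bf_le K F S hS
  have h2 := finsum_diffExp_Binf_le K F
  have hn := one_le_finrank K F
  have h3 : (S.card : ℤ) * ((finrank (RatFunc K) F : ℤ) - 1) ≤
      1 * ((finrank (RatFunc K) F : ℤ) - 1) := by
    refine mul_le_mul_of_nonneg_right (by exact_mod_cast hcard) ?_
    have : (1 : ℤ) ≤ (finrank (RatFunc K) F : ℤ) := by exact_mod_cast hn
    omega
  omega

/-- **(G0)** An everywhere unramified finite separable extension of `K(x)` is trivial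
(`K` algebraically closed of characteristic zero). -/
theorem finrank_eq_one_of_unramified
    (hfin : ∀ v : HeightOneSpectrum (Bf K F), eOver K[X] v = 1)
    (hinf : ∀ w : HeightOneSpectrum (Binf K F), eOver (Rinf K) w = 1) :
    finrank (RatFunc K) F = 1 := by
  have hRH := RRDiff.two_mul_genusFF_sub_two_coord K F
  have h1 := finsum_diffExp_Bf_le K F ∅ (fun v _ => hfin v)
  have h0 := finsum_diffExp_Bf_nonneg K F
  have h2 := finsum_diffExp_Binf_eq_zero K F hinf
  have hn := one_le_finrank K F
  rw [Finset.card_empty, Nat.cast_zero, zero_mul] at h1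
  omega

/-- Unramified outside one finite place and unramified at infinity: `F = K(x)`. -/
theorem finrank_eq_one_of_ramified_le_one (S : Finset (Ideal K[X])) (hcard : S.card ≤ 1)
    (hS : ∀ v : HeightOneSpectrum (Bf K F), v.asIdeal.under K[X] ∉ S → eOver K[X] v = 1)
    (hinf : ∀ w : HeightOneSpectrum (Binf K F), eOver (Rinf K) w = 1) :
    finrank (RatFunc K) F = 1 := by
  have hRH := RRDiff.two_mul_genusFF_sub_two_coord K F
  have h1 := finsum_diffExp_Bf_le K F S hS
  have h2 := finsum_diffExp_Binf_eq_zero K F hinf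
  have hn := one_le_finrank K F
  have h3 : (S.card : ℤ) * ((finrank (RatFunc K) F : ℤ) - 1) ≤
      1 * ((finrank (RatFunc K) F : ℤ) - 1) := by
    refine mul_le_mul_of_nonneg_right (by exact_mod_cast hcard) ?_
    have : (1 : ℤ) ≤ (finrank (RatFunc K) F : ℤ) := by exact_mod_cast hn
    omega
  omega

end Fermat.Agent.SW.FFG
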