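import Mathlib

/-!
# SW / FFG: every transcendental element of a function field of one variable is a coordinate

`F / K` fields, `x ∈ F` with `F` finite over `K(x)`.  Then `F` is finite over `K(w)` for every
`w ∈ F` transcendental over `K` (`finiteDimensional_adjoin_of_transcendental`).
-/

set_option autoImplicit false

open IntermediateField Module

open scoped IntermediateField.algebraAdjoinAdjoin

namespace Fermat.Agent.SW.FFG

universe u v

variable {K : Type u} {F : Type v} [Field K] [Field F] [Algebra K F]

/-- `F` is algebraic over `K(w)` for every transcendental `w`, if it is algebraic over `K(x)`. -/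
theorem isAlgebraic_adjoin_of_transcendental {x w : F} [Algebra.IsAlgebraic K⟮x⟯ F]
    (hw : Transcendental K w) : Algebra.IsAlgebraic K⟮w⟯ F := by
  -- `trdeg K F ≤ 1`
  have halg : Algebra.IsAlgebraic (Algebra.adjoin K ({x} : Set F)) F :=
    Algebra.IsAlgebraic.trans (Algebra.adjoin K ({x} : Set F)) K⟮x⟯ F
  have hle : Algebra.trdeg K F ≤ 1 := by
    have := Algebra.IsAlgebraic.trdeg_le_cardinalMk K ({x} : Set F)
    simpa using this
  have hind : AlgebraicIndependent K (fun _ : PUnit.{v + 1} => w) :=
    algebraicIndependent_unique_type_iff.mpr hw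
  have hbasis : IsTranscendenceBasis K (fun _ : PUnit.{v + 1} => w) :=
    hind.isTranscendenceBasis_of_trdeg_le_of_finite (by simpa using hle)
  have h := hbasis.isAlgebraic_field
  have hrange : Set.range (fun _ : PUnit.{v + 1} => w) = {w} := by
    ext y
    simp [eq_comm]
  rwa [hrange] at h

/-- **Every transcendental element is a coordinate**: if `F` is finite over `K(x)` then it is
finite over `K(w)` for every `w` transcendental over `K`. -/
theorem finiteDimensional_adjoin_of_transcendental {x w : F} [FiniteDimensional K⟮x⟯ F]
    (hw : Transcendental K w) : FiniteDimensional K⟮w⟯ F := by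
  have halg : Algebra.IsAlgebraic K⟮w⟯ F := isAlgebraic_adjoin_of_transcendental (x := x) hw
  have h1 : Algebra.EssFiniteType K K⟮x⟯ :=
    essFiniteType_iff.mpr ⟨{x}, by simp⟩
  have h2 : Algebra.EssFiniteType K⟮x⟯ F := inferInstance
  have h3 : Algebra.EssFiniteType K F := Algebra.EssFiniteType.comp K K⟮x⟯ F
  have h4 : Algebra.EssFiniteType K⟮w⟯ F := Algebra.EssFiniteType.of_comp K K⟮w⟯ F
  exact Algebra.finite_of_essFiniteType_of_isAlgebraic

end Fermat.Agent.SW.FFG
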