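import Mathlib
import Fermat.Agent.Good.PoleDegree
import Fermat.Agent.FF.CoordSepVar
import Fermat.Agent.SW.FFG.TranscFinite

/-!
# SW / FFG (G3): a function field of genus zero is rational

`K` algebraically closed of characteristic zero, `F / K` a function field with a separating
variable (`IsSepVarS K x n`), `genusFF K F = 0`, `P` a place.

* `two_le_finrank_riemannRochSpace_single` : `2 ≤ l(P)`;
* `exists_generator_of_genusFF_eq_zero` : there is `w ∈ F` with `K(w) = F`, a simple pole at `P`
  and no other pole;
* `adjoin_eq_top_of_pole` : every `w` with a simple pole at `P` and no other pole generates `F`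
  (no genus hypothesis);
* `exists_generator_coord` : the coordinate-context form.
-/

set_option autoImplicit false

open AlgebraicCurve IntermediateField Module Polynomial

namespace Fermat.Agent.SW.FFG

open Fermat.Agent.Red Fermat.Agent.FF Fermat.Agent.X0 Fermat.Agent.Good Fermat.Agent.Good.GenusCharts

variable {K F : Type*} [Field K] [Field F] [Algebra K F] [IsAlgClosed K]

/-- An element of `F` algebraic over the algebraically closed field `K` is a constant. -/
theorem exists_algebraMap_eq_of_isAlgebraic {w : F} (hw : IsAlgebraic K w) :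
    ∃ a : K, algebraMap K F a = w := by
  have halg : Algebra.IsAlgebraic K K⟮w⟯ := isAlgebraic_adjoin_simple hw.isIntegral
  have hbot : K⟮w⟯ = ⊥ := IntermediateField.eq_bot_of_isAlgClosed_of_isAlgebraic K⟮w⟯
  have hmem : w ∈ (⊥ : IntermediateField K F) := hbot ▸ mem_adjoin_simple_self K w
  exact IntermediateField.mem_bot.mp hmem

variable [CharZero K]

/-- A function with a simple pole at `P` and no other pole generates the function field. -/
theorem adjoin_eq_top_of_pole {x : F} {n : ℕ} (hx : IsSepVarS K x n) (P : Place K F) {w : F}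
    (hP : P.ord w = -1) (hQ : ∀ Q : Place K F, Q ≠ P → 0 ≤ Q.ord w) : K⟮w⟯ = ⊤ := by
  classical
  have hF : RiemannPkg K F := riemannPkg hx
  have hprin : HasPrincipalDivisors K F := hF.principal
  -- `w` is transcendental
  have htr : Transcendental K w := by
    intro halg
    obtain ⟨a, rfl⟩ := exists_algebraMap_eq_of_isAlgebraic halg
    have := Place.ord_algebraMap P a
    omega
  have hfin : FiniteDimensional K⟮x⟯ F := hx.finite
  have hfinw : FiniteDimensional K⟮w⟯ F := finiteDimensional_adjoin_of_transcendental (x := x) htr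
  have hchar : CharZero K⟮w⟯ := charZero_of_injective_algebraMap (algebraMap K K⟮w⟯).injective
  have hsep : Algebra.IsSeparable K⟮w⟯ F := inferInstance
  have hw : IsSepVarS K w (finrank K⟮w⟯ F) := ⟨⟨htr, hfinw, rfl⟩, hsep⟩
  have hdeg := degree_poleDiv_of_isSepVarS hw
  have hpole : poleDiv K w = Finsupp.single P 1 := by
    ext Q
    rw [poleDiv_apply]
    by_cases hQP : Q = P
    · subst hQP
      rw [hP, Finsupp.single_eq_same]
      norm_num
    · rw [Finsupp.single_eq_of_ne hQP]
      have := hQ Q hQP
      omega
  rw [hpole, Divisor.degree_single, hF.deg_one P] at hdeg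
  have h1 : finrank K⟮w⟯ F = 1 := by exact_mod_cast hdeg.symm
  exact IntermediateField.finrank_eq_one_iff_eq_top.mp h1

omit [CharZero K] in
/-- Riemann's inequality at a single place in genus zero: `2 ≤ l(P)`. -/
theorem two_le_finrank_riemannRochSpace_single {x : F} {n : ℕ} (hx : IsSepVarS K x n)
    (hg : genusFF K F = 0) (P : Place K F) :
    2 ≤ finrank K (riemannRochSpace (Finsupp.single P 1 : Divisor K F)) := by
  have hF : RiemannPkg K F := riemannPkg hx
  have h := hF.riemann_le (Finsupp.single P 1 : Divisor K F)
  rw [Divisor.degree_single, hF.deg_one P, hg] at h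
  have : (2 : ℤ) ≤ (finrank K (riemannRochSpace (Finsupp.single P 1 : Divisor K F)) : ℤ) := by
    simpa using h
  exact_mod_cast this

omit [CharZero K] in
/-- In genus zero there is a function with a simple pole at the given place and no other pole. -/
theorem exists_simple_pole {x : F} {n : ℕ} (hx : IsSepVarS K x n)
    (hg : genusFF K F = 0) (P : Place K F) :
    ∃ w : F, P.ord w = -1 ∧ ∀ Q : Place K F, Q ≠ P → 0 ≤ Q.ord w := by
  classical
  have hF : RiemannPkg K F := riemannPkg hx
  have h2 := two_le_finrank_riemannRochSpace_single hx hg P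
  set D : Divisor K F := Finsupp.single P 1 with hD
  -- a non-constant element of `L(P)`
  obtain ⟨w, hwL, hwc⟩ : ∃ w ∈ riemannRochSpace D, ∀ a : K, algebraMap K F a ≠ w := by
    by_contra hcon
    push Not at hcon
    have hle : riemannRochSpace D ≤ LinearMap.range (Algebra.linearMap K F) := by
      intro w hw
      obtain ⟨a, ha⟩ := hcon w hw
      exact ⟨a, ha⟩
    have h1 : finrank K (LinearMap.range (Algebra.linearMap K F)) ≤ 1 := by
      have := LinearMap.finrank_range_le (Algebra.linearMap K F)
      simpa using this
    have := Submodule.finrank_mono hle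
    omega
  have hw0 : w ≠ 0 := fun h => hwc 0 (by rw [map_zero, h])
  rw [mem_riemannRochSpace_iff] at hwL
  have hQ : ∀ Q : Place K F, Q ≠ P → 0 ≤ Q.ord w := by
    intro Q hQP
    have := (hwL Q).resolve_left hw0
    rwa [hD, Finsupp.single_eq_of_ne hQP, neg_zero] at this
  have hP1 : -1 ≤ P.ord w := by
    have := (hwL P).resolve_left hw0
    rwa [hD, Finsupp.single_eq_same] at this
  refine ⟨w, ?_, hQ⟩
  by_contra hne
  have hP0 : 0 ≤ P.ord w := by omega
  have hmem : w ∈ riemannRochSpace (0 : Divisor K F) := by
    rw [mem_riemannRochSpace_iff]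
    intro v
    right
    rw [Finsupp.zero_apply, neg_zero]
    by_cases hv : v = P
    · rw [hv]; exact hP0
    · exact hQ v hv
  obtain ⟨a, ha⟩ := hF.L_zero w hmem
  exact hwc a ha.symm

/-- **(G3)** A function field of genus zero over an algebraically closed field of characteristic
zero is rational: for every place `P` there is a generator with a simple pole at `P` and no other
pole. -/
theorem exists_generator_of_genusFF_eq_zero {x : F} {n : ℕ} (hx : IsSepVarS K x n)
    (hg : genusFF K F = 0) (P : Place K F) :
    ∃ w : F, K⟮w⟯ = ⊤ ∧ P.ord w = -1 ∧ ∀ Q : Place K F, Q ≠ P → 0 ≤ Q.ord w := by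
  obtain ⟨w, hP, hQ⟩ := exists_simple_pole hx hg P
  exact ⟨w, adjoin_eq_top_of_pole hx P hP hQ, hP, hQ⟩

omit [CharZero K] in
/-- **Uniqueness up to the affine group**: two functions with at most a simple pole at `P` and no
other pole, the first one with a pole, differ by an affine transformation `w' = a w + b`. -/
theorem exists_affine_of_pole_le {x : F} {n : ℕ} (hx : IsSepVarS K x n) (P : Place K F)
    {w w' : F} (hP : P.ord w = -1) (hQ : ∀ Q : Place K F, Q ≠ P → 0 ≤ Q.ord w)
    (hP' : -1 ≤ P.ord w') (hQ' : ∀ Q : Place K F, Q ≠ P → 0 ≤ Q.ord w') :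
    ∃ a b : K, w' = algebraMap K F a * w + algebraMap K F b := by
  have hF : RiemannPkg K F := riemannPkg hx
  have hw0 : w ≠ 0 := by
    rintro rfl
    rw [Place.ord_zero] at hP
    omega
  rcases eq_or_ne w' 0 with rfl | hw'0
  · exact ⟨0, 0, by simp⟩
  -- the leading coefficient
  have hu : w' / w ∈ P.toValuationSubring := by
    apply Place.mem_of_ord_nonneg
    rw [div_eq_mul_inv, P.ord_mul hw'0 (inv_ne_zero hw0), P.ord_inv, hP]
    omega
  obtain ⟨c, hc⟩ := Place.exists_adicValuation_sub_lt_one_S hx P hu
  set g : F := w' - algebraMap K F c * w with hg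
  have hgw : g = (w' / w - algebraMap K F c) * w := by
    rw [hg]
    field_simp
  -- `g` is a constant
  have hmem : g ∈ riemannRochSpace (0 : Divisor K F) := by
    rw [mem_riemannRochSpace_iff]
    intro v
    rcases eq_or_ne g 0 with h0 | h0
    · exact Or.inl h0
    right
    rw [Finsupp.zero_apply, neg_zero]
    by_cases hv : v = P
    · subst hv
      have hne : w' / w - algebraMap K F c ≠ 0 := by
        intro h
        rw [hgw, h, zero_mul] at h0
        exact h0 rfl
      rw [Fermat.Agent.X0.Place.adicValuation_eq_exp_neg_ord v hne, ← WithZero.exp_zero, WithZero.exp_lt_exp]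
        at hc
      rw [hgw, v.ord_mul hne hw0, hP]
      omega
    · have h1 : g = w' + -(algebraMap K F c * w) := by rw [hg]; ring
      rw [h1] at h0 ⊢
      refine Place.le_ord_add v h0 0 (Or.inl (hQ' v hv)) ?_
      rcases eq_or_ne c 0 with rfl | hc0
      · right; simp
      · left
        rw [Place.ord_neg, v.ord_mul (by simpa using hc0) hw0, Place.ord_algebraMap, zero_add]
        exact hQ v hv
  obtain ⟨b, hb⟩ := hF.L_zero g hmem
  refine ⟨c, b, ?_⟩
  rw [← hb, hg]
  ring

end Fermat.Agent.SW.FFG
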