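import Mathlib
import Fermat.Agent.SW.FFG.GenusRam
import Fermat.Agent.SW.FFG.RationalOfGenusZero

/-!
# SW / FFG (G1 + G3): a cover of the line ramified over at most two points is rational

Coordinate context of `FF/RHCoord.lean`, `K` algebraically closed of characteristic zero.

* `exists_generator_coord` : `genusFF K F = 0 →` for every place `P` there is `w` with `K(w) = F`,
  a simple pole at `P` and no other pole;
* `exists_generator_of_ramified_le_two` : the same conclusion if `F / K(x)` is unramified outside a
  set of at most two finite places and unramified at infinity;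
* `exists_affine_coord` : uniqueness of such a `w` up to `w ↦ a w + b`.
-/

set_option autoImplicit false
set_option linter.unusedSectionVars false

open AlgebraicCurve Polynomial Module IsDedekindDomain FunctionField IntermediateField

namespace Fermat.Agent.SW.FFG

open Fermat.Agent.X0.RR Fermat.Agent.FF

variable (K F : Type*) [Field K] [Field F] [Algebra K F]
  [Algebra K[X] F] [Algebra (RatFunc K) F] [IsScalarTower K[X] (RatFunc K) F]
  [IsScalarTower K K[X] F] [IsScalarTower K (RatFunc K) F]
  [FunctionField K F] [Algebra.IsSeparable (RatFunc K) F] [IsAlgClosed K] [CharZero K]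

/-- (G3), coordinate form. -/
theorem exists_generator_coord (hg : genusFF K F = 0) (P : Place K F) :
    ∃ w : F, K⟮w⟯ = ⊤ ∧ P.ord w = -1 ∧ ∀ Q : Place K F, Q ≠ P → 0 ≤ Q.ord w :=
  exists_generator_of_genusFF_eq_zero (isSepVarS_coordX K F) hg P

/-- (G1) + (G3): a cover of the line unramified outside two finite points is rational. -/
theorem exists_generator_of_ramified_le_two (S : Finset (Ideal K[X])) (hcard : S.card ≤ 2)
    (hS : ∀ v : HeightOneSpectrum (Bf K F), v.asIdeal.under K[X] ∉ S → eOver K[X] v = 1)
    (hinf : ∀ w : HeightOneSpectrum (Binf K F), eOver (Rinf K) w = 1) (P : Place K F) :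
    ∃ w : F, K⟮w⟯ = ⊤ ∧ P.ord w = -1 ∧ ∀ Q : Place K F, Q ≠ P → 0 ≤ Q.ord w :=
  exists_generator_coord K F (genusFF_eq_zero_of_ramified_le_two K F S hcard hS hinf) P

/-- (G1') + (G3): a cover of the line unramified outside one finite point and infinity is
rational. -/
theorem exists_generator_of_ramified_le_one_inf (S : Finset (Ideal K[X])) (hcard : S.card ≤ 1)
    (hS : ∀ v : HeightOneSpectrum (Bf K F), v.asIdeal.under K[X] ∉ S → eOver K[X] v = 1)
    (P : Place K F) :
    ∃ w : F, K⟮w⟯ = ⊤ ∧ P.ord w = -1 ∧ ∀ Q : Place K F, Q ≠ P → 0 ≤ Q.ord w :=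
  exists_generator_coord K F (genusFF_eq_zero_of_ramified_le_one_inf K F S hcard hS) P

/-- Uniqueness up to the affine group, coordinate form. -/
theorem exists_affine_coord (P : Place K F) {w w' : F} (hP : P.ord w = -1)
    (hQ : ∀ Q : Place K F, Q ≠ P → 0 ≤ Q.ord w) (hP' : -1 ≤ P.ord w')
    (hQ' : ∀ Q : Place K F, Q ≠ P → 0 ≤ Q.ord w') :
    ∃ a b : K, w' = algebraMap K F a * w + algebraMap K F b :=
  exists_affine_of_pole_le (isSepVarS_coordX K F) P hP hQ hP' hQ'

end Fermat.Agent.SW.FFG
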