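import Mathlib
import Fermat.Agent.SW.FFG.GenusRam
import Fermat.Agent.SW.FFG.RationalOfGenusZero
import Fermat.Agent.FF.PlacesCoord

/-!
# SW / FFG (G1, G0 in the vocabulary of places)

`K` algebraically closed of characteristic zero, `x` a separating variable of `F / K`.
The cover `x : C → P¹` is *unramified over the value `a`* if `ord_v (x - a) = 1` for all places `v`
with `ord_v (x - a) > 0`, and *unramified over `∞`* if `ord_v x = -1` at all poles of `x`.

* `genusFF_eq_zero_of_ord` (coordinate context) / `genusFF_eq_zero_of_isSepVarS` :
  unramified outside a set `S` of at most two finite values and over `∞` implies genus zero;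
* `finrank_eq_one_of_isSepVarS` : everywhere unramified implies `n = 1`;
* `exists_generator_of_isSepVarS` : in the first situation `F = K(w)`.
-/

set_option autoImplicit false
set_option linter.unusedSectionVars false

open AlgebraicCurve Polynomial Module IsDedekindDomain FunctionField IntermediateField

namespace Fermat.Agent.SW.FFG

open Fermat.Agent.X0 Fermat.Agent.X0.RR Fermat.Agent.X0.RR7 Fermat.Agent.FF

section Coord

variable (K F : Type*) [Field K] [Field F] [Algebra K F]
  [Algebra K[X] F] [Algebra (RatFunc K) F] [IsScalarTower K[X] (RatFunc K) F]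
  [IsScalarTower K K[X] F] [IsScalarTower K (RatFunc K) F]
  [FunctionField K F] [Algebra.IsSeparable (RatFunc K) F] [IsAlgClosed K] [CharZero K]

/-- Unramified over the finite values outside `S`, in the `eOver` form. -/
theorem eOver_eq_one_of_ord (S : Finset K)
    (hfin : ∀ (v : Place K F) (a : K), a ∉ S → 0 < v.ord (coordX K F - algebraMap K F a) →
      v.ord (coordX K F - algebraMap K F a) = 1)
    (v : HeightOneSpectrum (Bf K F))
    (hv : v.asIdeal.under K[X] ∉ S.image fun a => Ideal.span {X - C a}) :
    eOver K[X] v = 1 := by
  obtain ⟨a, ha⟩ := exists_liesOver_primeAt (K := K) (F := F) v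
  have hunder : v.asIdeal.under K[X] = Ideal.span {X - C a} := by
    rw [← primeAt_asIdeal]
    exact ha.over.symm
  have haS : a ∉ S := by
    intro h
    apply hv
    rw [hunder]
    exact Finset.mem_image_of_mem _ h
  have hpos : 0 < (Place.ofHeightOneSpectrum (K := K) (F := F) v).ord
      (coordX K F - algebraMap K F a) := (Place.ord_pos_iff_liesOver v a).mpr ha
  have h1 := eOver_eq_ord_sub (K := K) (F := F) v a hpos
  have h2 := hfin _ a haS hpos
  have h3 : (eOver K[X] v : ℤ) = 1 := h1.trans h2
  exact_mod_cast h3

/-- Unramified over `∞`, in the `eOver` form. -/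
theorem eOver_inf_eq_one_of_ord
    (hinf : ∀ v : Place K F, v.ord (coordX K F) < 0 → v.ord (coordX K F) = -1)
    (w : HeightOneSpectrum (Binf K F)) : eOver (Rinf K) w = 1 := by
  have h1 := eOver_inf_eq_neg_ord (K := K) (F := F) w
  have h2 := hinf _ (ord_coordX_neg_ofHeightOneSpectrum_inf (K := K) (F := F) w)
  have h3 : (eOver (Rinf K) w : ℤ) = 1 := by rw [h1, h2]; norm_num
  exact_mod_cast h3

/-- **(G1), places form, coordinate context.** -/
theorem genusFF_eq_zero_of_ord (S : Finset K) (hcard : S.card ≤ 2)
    (hfin : ∀ (v : Place K F) (a : K), a ∉ S → 0 < v.ord (coordX K F - algebraMap K F a) →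
      v.ord (coordX K F - algebraMap K F a) = 1)
    (hinf : ∀ v : Place K F, v.ord (coordX K F) < 0 → v.ord (coordX K F) = -1) :
    genusFF K F = 0 := by
  classical
  exact genusFF_eq_zero_of_ramified_le_two K F (S.image fun a => Ideal.span {X - C a})
    (Finset.card_image_le.trans hcard) (eOver_eq_one_of_ord K F S hfin)
    (eOver_inf_eq_one_of_ord K F hinf)

/-- **(G0), places form, coordinate context.** -/
theorem finrank_eq_one_of_ord
    (hfin : ∀ (v : Place K F) (a : K), 0 < v.ord (coordX K F - algebraMap K F a) →
      v.ord (coordX K F - algebraMap K F a) = 1)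
    (hinf : ∀ v : Place K F, v.ord (coordX K F) < 0 → v.ord (coordX K F) = -1) :
    finrank (RatFunc K) F = 1 := by
  classical
  refine finrank_eq_one_of_unramified K F (fun v => ?_) (eOver_inf_eq_one_of_ord K F hinf)
  exact eOver_eq_one_of_ord K F ∅ (fun v a _ h => hfin v a h) v (by simp)

end Coord

section SepVar

variable {K F : Type*} [Field K] [Field F] [Algebra K F] [IsAlgClosed K] [CharZero K]

/-- **(G1), places form.** A separating variable which is unramified outside at most two finite
values and unramified over `∞`: the function field has genus zero. -/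
theorem genusFF_eq_zero_of_isSepVarS {x : F} {n : ℕ} (hx : IsSepVarS K x n) (S : Finset K)
    (hcard : S.card ≤ 2)
    (hfin : ∀ (v : Place K F) (a : K), a ∉ S → 0 < v.ord (x - algebraMap K F a) →
      v.ord (x - algebraMap K F a) = 1)
    (hinf : ∀ v : Place K F, v.ord x < 0 → v.ord x = -1) :
    genusFF K F = 0 := by
  let _ := algPoly K x
  let _ := algRat hx.transcendental
  have := isScalarTower_poly_rat hx.transcendental
  have := isScalarTower_base_poly (K := K) x
  have := hx.finite
  have := hx.separable
  have := functionField_of_finite hx.transcendental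
  have := isSeparable_ratFunc_of hx.transcendental
  have := isScalarTower_base_rat (K := K) (F := F)
  have hX : coordX K F = x := coordX_eq x
  refine genusFF_eq_zero_of_ord K F S hcard ?_ ?_
  · rw [hX]; exact hfin
  · rw [hX]; exact hinf

/-- **(G0), places form.** An everywhere unramified separating variable has degree one. -/
theorem finrank_eq_one_of_isSepVarS {x : F} {n : ℕ} (hx : IsSepVarS K x n)
    (hfin : ∀ (v : Place K F) (a : K), 0 < v.ord (x - algebraMap K F a) →
      v.ord (x - algebraMap K F a) = 1)
    (hinf : ∀ v : Place K F, v.ord x < 0 → v.ord x = -1) :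
    n = 1 := by
  let _ := algPoly K x
  let _ := algRat hx.transcendental
  have := isScalarTower_poly_rat hx.transcendental
  have := isScalarTower_base_poly (K := K) x
  have := hx.finite
  have := hx.separable
  have := functionField_of_finite hx.transcendental
  have := isSeparable_ratFunc_of hx.transcendental
  have := isScalarTower_base_rat (K := K) (F := F)
  have hX : coordX K F = x := coordX_eq x
  have h := finrank_eq_one_of_ord K F (by rw [hX]; exact hfin) (by rw [hX]; exact hinf)
  rw [finrank_ratFunc_eq hx.transcendental, hx.finrank_eq] at h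
  exact h

/-- **(G1) + (G3), places form.** A separating variable unramified outside at most two finite
values and over `∞`: for every place `P` there is a generator `w` of `F / K` with a simple pole at
`P` and no other pole. -/
theorem exists_generator_of_isSepVarS {x : F} {n : ℕ} (hx : IsSepVarS K x n) (S : Finset K)
    (hcard : S.card ≤ 2)
    (hfin : ∀ (v : Place K F) (a : K), a ∉ S → 0 < v.ord (x - algebraMap K F a) →
      v.ord (x - algebraMap K F a) = 1)
    (hinf : ∀ v : Place K F, v.ord x < 0 → v.ord x = -1) (P : Place K F) :
    ∃ w : F, K⟮w⟯ = ⊤ ∧ P.ord w = -1 ∧ ∀ Q : Place K F, Q ≠ P → 0 ≤ Q.ord w :=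
  exists_generator_of_genusFF_eq_zero hx
    (genusFF_eq_zero_of_isSepVarS hx S hcard hfin hinf) P

end SepVar

end Fermat.Agent.SW.FFG
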