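import Mathlib
import Fermat.Agent.FF.PlacesCoord

/-!
# SW / FFG (adapter): an intermediate field `Ω ⊆ Fb`, finitely generated and algebraic over `K(t)`,
is a function field with separating variable `t`

`K` a field of characteristic zero, `Fb / K` a field extension, `Ω : IntermediateField K Fb`,
`t ∈ Ω` transcendental over `K`.

* `isAlgebraic_of_generators` : if `Ω = K(t, s)` with every element of `s` algebraic over `K(t)`
  then every element of `Ω` is algebraic over `K(t)`;
* `finiteDimensional_adjoin_of_fg` : `Ω` finitely generated over `K` and algebraic over `K(t)`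
  (inside `Fb`) implies `[Ω : K(t)] < ∞` (inside `Ω`);
* `isSepVarS_of_fg` : then `t` is a separating variable of `Ω / K`.
-/

set_option autoImplicit false

open IntermediateField Module

namespace Fermat.Agent.SW.FFG

open Fermat.Agent.X0 Fermat.Agent.FF

variable {K Fb : Type*} [Field K] [Field Fb] [Algebra K Fb]

/-- Elements of `K(t, s)` are algebraic over `K(t)` if the elements of `s` are. -/
theorem isAlgebraic_of_generators (t : Fb) (s : Set Fb) (hs : ∀ x ∈ s, IsAlgebraic K⟮t⟯ x)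
    {z : Fb} (hz : z ∈ IntermediateField.adjoin K (insert t s)) : IsAlgebraic K⟮t⟯ z := by
  have hle : IntermediateField.adjoin K (insert t s) ≤
      (algebraicClosure K⟮t⟯ Fb).restrictScalars K := by
    rw [IntermediateField.adjoin_le_iff]
    intro x hx
    have hx' : IsAlgebraic K⟮t⟯ x := by
      rcases Set.mem_insert_iff.mp hx with h | h
      · rw [h]
        exact isAlgebraic_algebraMap (⟨t, mem_adjoin_simple_self K t⟩ : K⟮t⟯)
      · exact hs x h
    exact mem_algebraicClosure_iff.mpr hx'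
  have := hle hz
  exact mem_algebraicClosure_iff.mp this

/-- The canonical isomorphism `K(t) ⊆ Ω` with `K(t) ⊆ Fb`. -/
noncomputable def adjoinEquiv (Ω : IntermediateField K Fb) (t : Ω) :
    K⟮t⟯ ≃ₐ[K] K⟮(t : Fb)⟯ :=
  (liftAlgEquiv K⟮t⟯).trans (IntermediateField.equivOfEq (lift_adjoin_simple K Ω t))

theorem adjoinEquiv_apply (Ω : IntermediateField K Fb) (t : Ω) (x : K⟮t⟯) :
    ((adjoinEquiv Ω t x : K⟮(t : Fb)⟯) : Fb) = ((x : Ω) : Fb) := rfl

/-- Algebraicity over `K(t)` inside `Fb` and inside `Ω` are the same. -/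
theorem isAlgebraic_adjoin_iff (Ω : IntermediateField K Fb) (t : Ω) (z : Ω) :
    IsAlgebraic K⟮(t : Fb)⟯ (z : Fb) ↔ IsAlgebraic K⟮t⟯ z :=
  isAlgebraic_ringHom_iff_of_comp_eq (adjoinEquiv Ω t) (Ω.val : Ω →+* Fb)
    Ω.val.injective (by ext x; rfl)

/-- `Ω` finitely generated over `K` and algebraic over `K(t)`: `[Ω : K(t)] < ∞`. -/
theorem finiteDimensional_adjoin_of_fg (Ω : IntermediateField K Fb) (t : Ω) (hFG : Ω.FG)
    (halg : ∀ z ∈ Ω, IsAlgebraic K⟮(t : Fb)⟯ z) : FiniteDimensional K⟮t⟯ Ω := by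
  have h1 : Algebra.EssFiniteType K Ω := essFiniteType_iff.mpr hFG
  have h2 : Algebra.EssFiniteType K⟮t⟯ Ω := Algebra.EssFiniteType.of_comp K K⟮t⟯ Ω
  have h3 : Algebra.IsAlgebraic K⟮t⟯ Ω :=
    ⟨fun z => (isAlgebraic_adjoin_iff Ω t z).mp (halg z z.2)⟩
  exact Algebra.finite_of_essFiniteType_of_isAlgebraic

/-- A generator of `Ω` as a field over `K` (inside `Ω`) generates it inside `Fb`. -/
theorem mem_adjoin_of_adjoin_eq_top (Ω : IntermediateField K Fb) {w : Ω} (hw : K⟮w⟯ = ⊤)
    {z : Fb} (hz : z ∈ Ω) : z ∈ K⟮(w : Fb)⟯ := by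
  rw [← lift_adjoin_simple K Ω w, hw, lift_top]
  exact hz

variable [CharZero K]

/-- **Adapter.** `t` is a separating variable of `Ω / K`. -/
theorem isSepVarS_of_fg (Ω : IntermediateField K Fb) (t : Ω) (ht : Transcendental K (t : Fb))
    (hFG : Ω.FG) (halg : ∀ z ∈ Ω, IsAlgebraic K⟮(t : Fb)⟯ z) :
    IsSepVarS K t (finrank K⟮t⟯ Ω) := by
  have htr : Transcendental K t :=
    (transcendental_algebraMap_iff (R := K) (S := Ω) (A := Fb) Ω.val.injective).mp ht
  have hfin : FiniteDimensional K⟮t⟯ Ω := finiteDimensional_adjoin_of_fg Ω t hFG halg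
  have hchar : CharZero K⟮t⟯ := charZero_of_injective_algebraMap (algebraMap K K⟮t⟯).injective
  exact ⟨⟨htr, hfin, rfl⟩, inferInstance⟩

end Fermat.Agent.SW.FFG
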