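import Mathlib
import Fermat.Agent.SW.FFG.GenusOrd
import Fermat.Agent.SW.FFG.SubfieldSepVar

/-!
# SW / FFG: the consumer-facing statements (G0 / G1 + G3 composed with the bridge G2)

`K` algebraically closed of characteristic zero, `Fb / K` a field, `Ω : IntermediateField K Fb`,
`t ∈ Ω` transcendental over `K`, `Ω` finitely generated over `K` and algebraic over `K(t)`.

Vocabulary of the consumer: valuation subrings `O` of `Fb` and automorphisms `σ` of `Fb / K` with
`σ t = t` stabilising `O` (the decomposition group of `O` in `Gal(Fb / K(t))`).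

* `BridgePlace K Fb` : the bridge (G2) as a `Prop`: if the decomposition group of every valuation
  subring of `Fb` above the place `v` of `Ω` fixes `Ω` pointwise then `v` is unramified over `K(t)`;
* `exists_generator_of_unramified` : (G1) + (G2) + (G3);
* `mem_adjoin_of_unramified` : (G0) + (G2).
-/

set_option autoImplicit false

open AlgebraicCurve IntermediateField Module

namespace Fermat.Agent.SW.FFG

open Fermat.Agent.X0 Fermat.Agent.FF

variable (K Fb : Type*) [Field K] [Field Fb] [Algebra K Fb]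

/-- The decomposition group of `O` in `Gal(Fb / K(t))` fixes `Ω` pointwise. -/
def DecompFixes (Ω : IntermediateField K Fb) (t : Fb) (O : ValuationSubring Fb) : Prop :=
  ∀ σ : Fb ≃ₐ[K] Fb, σ t = t → (∀ x : Fb, σ x ∈ O ↔ x ∈ O) → ∀ z ∈ Ω, σ z = z

/-- **The bridge (G2)** as a `Prop` (true for `K` algebraically closed of characteristic zero and
`Fb` algebraically closed). -/
def BridgePlace : Prop :=
  ∀ (Ω : IntermediateField K Fb) (t : Ω), Transcendental K (t : Fb) →
    (∀ x : Fb, IsAlgebraic K⟮(t : Fb)⟯ x) → Ω.FG → ∀ v : Place K Ω,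
    (∀ O : ValuationSubring Fb, (∀ z : Ω, (z : Fb) ∈ O ↔ z ∈ v.toValuationSubring) →
      DecompFixes K Fb Ω (t : Fb) O) →
    (∀ c : K, 0 < v.ord (t - algebraMap K Ω c) → v.ord (t - algebraMap K Ω c) = 1) ∧
      (v.ord t < 0 → v.ord t = -1)

variable {K Fb}

/-- A valuation subring of `Fb` above the place `v` contains the constants. -/
theorem algebraMap_mem_of_above {Ω : IntermediateField K Fb} {v : Place K Ω}
    {O : ValuationSubring Fb} (hO : ∀ z : Ω, (z : Fb) ∈ O ↔ z ∈ v.toValuationSubring) (c : K) :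
    algebraMap K Fb c ∈ O := by
  have h := (hO (algebraMap K Ω c)).mpr (v.algebraMap_mem' c)
  exact h

/-- A zero of `z` at `v` has valuation `< 1` at every valuation subring above `v`. -/
theorem valuation_lt_one_of_above {Ω : IntermediateField K Fb} {v : Place K Ω}
    {O : ValuationSubring Fb} (hO : ∀ z : Ω, (z : Fb) ∈ O ↔ z ∈ v.toValuationSubring) {z : Ω}
    (hz : 0 < v.ord z) : O.valuation (z : Fb) < 1 := by
  rw [← ValuationSubring.mem_nonunits_iff, ValuationSubring.mem_nonunits_iff_or]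
  by_cases h0 : (z : Fb) = 0
  · exact Or.inl h0
  right
  intro hmem
  have h1 : ((z⁻¹ : Ω) : Fb) ∈ O := by simpa using hmem
  have h2 := (hO z⁻¹).mp h1
  have h3 := Place.ord_nonneg_of_mem v h2
  rw [v.ord_inv] at h3
  omega

/-- A pole of `z` at `v`: `z` does not belong to the valuation subrings above `v`. -/
theorem notMem_of_above {Ω : IntermediateField K Fb} {v : Place K Ω}
    {O : ValuationSubring Fb} (hO : ∀ z : Ω, (z : Fb) ∈ O ↔ z ∈ v.toValuationSubring) {z : Ω}
    (hz : v.ord z < 0) : (z : Fb) ∉ O := by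
  intro hmem
  have h3 := Place.ord_nonneg_of_mem v ((hO z).mp hmem)
  omega

variable [IsAlgClosed K] [CharZero K]

/-- **(G1) + (G2) + (G3), consumer form.** If the decomposition groups (in `Gal(Fb / K(t))`) of
all valuation subrings of `Fb` over the values `t = c`, `c ∉ S`, and over `t = ∞` fix `Ω`
pointwise, `|S| ≤ 2`, then `Ω = K(w)`. -/
theorem exists_generator_of_unramified (hB : BridgePlace K Fb) (Ω : IntermediateField K Fb)
    (t : Fb) (ht : t ∈ Ω) (htr : Transcendental K t) (hFG : Ω.FG)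
    (halg : ∀ x : Fb, IsAlgebraic K⟮t⟯ x) (S : Finset K) (hS : S.card ≤ 2)
    (hunr : ∀ O : ValuationSubring Fb, (∀ c : K, algebraMap K Fb c ∈ O) →
      ((∃ c : K, c ∉ S ∧ O.valuation (t - algebraMap K Fb c) < 1) ∨ t ∉ O) →
      DecompFixes K Fb Ω t O) :
    ∃ w ∈ Ω, ∀ z ∈ Ω, z ∈ K⟮w⟯ := by
  set t' : Ω := ⟨t, ht⟩ with ht'
  have hx : IsSepVarS K t' (finrank K⟮t'⟯ Ω) := isSepVarS_of_fg Ω t' htr hFG (fun z _ => halg z)
  obtain ⟨P⟩ : Nonempty (Place K Ω) := (infinite_place hx).nonempty
  have hfin : ∀ (v : Place K Ω) (a : K), a ∉ S → 0 < v.ord (t' - algebraMap K Ω a) →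
      v.ord (t' - algebraMap K Ω a) = 1 := by
    intro v a ha hpos
    refine (hB Ω t' htr halg hFG v fun O hO => ?_).1 a hpos
    refine hunr O (algebraMap_mem_of_above hO) (Or.inl ⟨a, ha, ?_⟩)
    exact valuation_lt_one_of_above hO hpos
  have hinf : ∀ v : Place K Ω, v.ord t' < 0 → v.ord t' = -1 := by
    intro v hneg
    refine (hB Ω t' htr halg hFG v fun O hO => ?_).2 hneg
    exact hunr O (algebraMap_mem_of_above hO) (Or.inr (notMem_of_above hO hneg))
  obtain ⟨w, hw, -, -⟩ := exists_generator_of_isSepVarS hx S hS hfin hinf P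
  exact ⟨w, w.2, fun z hz => mem_adjoin_of_adjoin_eq_top Ω hw hz⟩

/-- **(G0) + (G2), consumer form.** If the decomposition groups of all valuation subrings of `Fb`
(containing the constants, nontrivial on `K(t)`) fix `Ω` pointwise, then `Ω = K(t)`. -/
theorem mem_adjoin_of_unramified (hB : BridgePlace K Fb) (Ω : IntermediateField K Fb)
    (t : Fb) (ht : t ∈ Ω) (htr : Transcendental K t) (hFG : Ω.FG)
    (halg : ∀ x : Fb, IsAlgebraic K⟮t⟯ x)
    (hunr : ∀ O : ValuationSubring Fb, (∀ c : K, algebraMap K Fb c ∈ O) →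
      ((∃ c : K, O.valuation (t - algebraMap K Fb c) < 1) ∨ t ∉ O) →
      DecompFixes K Fb Ω t O) :
    ∀ z ∈ Ω, z ∈ K⟮t⟯ := by
  set t' : Ω := ⟨t, ht⟩ with ht'
  have hx : IsSepVarS K t' (finrank K⟮t'⟯ Ω) := isSepVarS_of_fg Ω t' htr hFG (fun z _ => halg z)
  have hfin : ∀ (v : Place K Ω) (a : K), 0 < v.ord (t' - algebraMap K Ω a) →
      v.ord (t' - algebraMap K Ω a) = 1 := by
    intro v a hpos
    refine (hB Ω t' htr halg hFG v fun O hO => ?_).1 a hpos
    refine hunr O (algebraMap_mem_of_above hO) (Or.inl ⟨a, ?_⟩)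
    exact valuation_lt_one_of_above hO hpos
  have hinf : ∀ v : Place K Ω, v.ord t' < 0 → v.ord t' = -1 := by
    intro v hneg
    refine (hB Ω t' htr halg hFG v fun O hO => ?_).2 hneg
    exact hunr O (algebraMap_mem_of_above hO) (Or.inr (notMem_of_above hO hneg))
  have h1 : finrank K⟮t'⟯ Ω = 1 := finrank_eq_one_of_isSepVarS hx hfin hinf
  have htop : K⟮t'⟯ = ⊤ := IntermediateField.finrank_eq_one_iff_eq_top.mp h1
  exact fun z hz => mem_adjoin_of_adjoin_eq_top Ω htop hz

end Fermat.Agent.SW.FFG
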