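import Mathlib
import Fermat.Agent.SW.Bridge.UnramGenus
import Fermat.Agent.SW.FFG.Compose
import Fermat.Agent.S05.Val

/-!
# SW / FFG: the consumer-facing statements of leaf E, Galois case (through helper11's bridge)

`K` algebraically closed of characteristic zero, `Fb` an algebraically closed field containing `K`,
`t ∈ Fb` transcendental over `K` with `Fb` algebraic over `K(t)`; `Ω : IntermediateField K Fb`
finitely generated, containing `t`, stable under `{σ ∈ Aut(Fb / K) | σ t = t}` (so `Ω / K(t)` is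
Galois).

* `exists_generator_of_unram_outside` : if the decomposition groups of all valuation subrings of
  `Fb` not centred at `t = α` or `t = β` fix `Ω` pointwise then `Ω = K(w)`;
* `mem_adjoin_of_forall_decomp` : if this holds for all valuation subrings, `Ω = K(t)`.
-/

set_option autoImplicit false
set_option linter.style.haveILetI false
set_option linter.unusedSectionVars false

open AlgebraicCurve IntermediateField Module Polynomial

namespace Fermat.Agent.SW.FFG.Gal

open Fermat.Agent.X0 Fermat.Agent.FF Fermat.Agent.SW.FFG Fermat.Agent.SW.Bridge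

variable {K Fb : Type*} [Field K] [Field Fb] [Algebra K Fb]

section Package

variable {t : Fb} (htr : Transcendental K t)

/-- The `RatFunc K`-algebra structure `X ↦ t` on `Fb` lands in `K(t)`. -/
theorem algebraMap_algRat_mem (r : RatFunc K) :
    letI := algRat htr
    algebraMap (RatFunc K) Fb r ∈ K⟮t⟯ := by
  letI := algRat htr
  exact (RatFunc.algEquivOfTranscendental t htr r).2

/-- `X ↦ t`. -/
theorem algebraMap_algRat_X :
    letI := algRat htr
    algebraMap (RatFunc K) Fb RatFunc.X = t := by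
  letI := algPoly K t
  letI := algRat htr
  haveI := isScalarTower_poly_rat htr
  haveI := isScalarTower_base_poly (K := K) t
  rw [Fermat.Agent.X0.RR7.algebraMap_ratFunc_X]
  exact coordX_eq t

/-- `C c ↦ c`. -/
theorem algebraMap_algRat_C (c : K) :
    letI := algRat htr
    algebraMap (RatFunc K) Fb (RatFunc.C c) = algebraMap K Fb c := by
  letI := algPoly K t
  letI := algRat htr
  haveI := isScalarTower_poly_rat htr
  haveI := isScalarTower_base_poly (K := K) t
  haveI : IsScalarTower K (RatFunc K) Fb := Fermat.Agent.X0.RR7.isScalarTower_base_rat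
  rw [← RatFunc.algebraMap_eq_C, ← IsScalarTower.algebraMap_apply]

/-- Algebraicity over `K(t)` is algebraicity over `RatFunc K` for the structure `X ↦ t`. -/
theorem isAlgebraic_algRat_iff (x : Fb) :
    letI := algRat htr
    IsAlgebraic (RatFunc K) x ↔ IsAlgebraic K⟮t⟯ x := by
  letI := algRat htr
  exact (isAlgebraic_ringHom_iff_of_comp_eq (RatFunc.algEquivOfTranscendental t htr)
    (RingHom.id Fb) Function.injective_id (by ext r; rfl)).symm

end Package

section Tower

variable (Ω : IntermediateField K Fb) {t : Fb}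

/-- `t`, as an element of `Ω`, is transcendental. -/
theorem transcendental_mk (ht : t ∈ Ω) (htr : Transcendental K t) :
    Transcendental K (⟨t, ht⟩ : Ω) :=
  (transcendental_algebraMap_iff (R := K) (S := Ω) (A := Fb) Ω.val.injective).mp htr

/-- The `RatFunc K`-structures `X ↦ t` on `Ω` and on `Fb` are compatible. -/
theorem isScalarTower_algRat (ht : t ∈ Ω) (htr : Transcendental K t) :
    letI := algRat (transcendental_mk Ω ht htr)
    letI := algRat htr
    IsScalarTower (RatFunc K) Ω Fb := by
  letI := algRat (transcendental_mk Ω ht htr)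
  letI := algRat htr
  refine IsScalarTower.of_algebraMap_eq' ?_
  refine IsLocalization.ringHom_ext (nonZeroDivisors K[X]) ?_
  refine Polynomial.ringHom_ext (fun c => ?_) ?_
  · show ratFuncHom htr (algebraMap K[X] (RatFunc K) (C c)) =
      Ω.val (ratFuncHom (transcendental_mk Ω ht htr) (algebraMap K[X] (RatFunc K) (C c)))
    rw [ratFuncHom_algebraMap, ratFuncHom_algebraMap, aeval_C, aeval_C]
    rfl
  · show ratFuncHom htr (algebraMap K[X] (RatFunc K) X) =
      Ω.val (ratFuncHom (transcendental_mk Ω ht htr) (algebraMap K[X] (RatFunc K) X))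
    rw [ratFuncHom_algebraMap, ratFuncHom_algebraMap, aeval_X, aeval_X]
    rfl

end Tower

section Galois

variable [CharZero K] [IsAlgClosed Fb] {t : Fb}

/-- `Fb / RatFunc K` (structure `X ↦ t`) is Galois if `Fb` is algebraically closed and algebraic
over `K(t)`. -/
theorem isGalois_algRat (htr : Transcendental K t) (halg : ∀ x : Fb, IsAlgebraic K⟮t⟯ x) :
    letI := algRat htr
    IsGalois (RatFunc K) Fb := by
  letI := algRat htr
  haveI : CharZero (RatFunc K) :=
    charZero_of_injective_algebraMap (algebraMap K (RatFunc K)).injective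
  haveI : Algebra.IsAlgebraic (RatFunc K) Fb := ⟨fun x => (isAlgebraic_algRat_iff htr x).mpr (halg x)⟩
  haveI : IsAlgClosure (RatFunc K) Fb := ⟨inferInstance, inferInstance⟩
  haveI : Normal (RatFunc K) Fb := IsAlgClosure.normal (RatFunc K) Fb
  exact ⟨⟩

/-- An automorphism of `Fb / RatFunc K` as an automorphism of `Fb / K` fixing `t`. -/
theorem exists_restrict (htr : Transcendental K t) :
    letI := algRat htr
    ∀ σ : Fb ≃ₐ[RatFunc K] Fb, ∃ τ : Fb ≃ₐ[K] Fb, τ t = t ∧ ∀ x, τ x = σ x := by
  letI := algPoly K t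
  letI := algRat htr
  haveI := isScalarTower_poly_rat htr
  haveI := isScalarTower_base_poly (K := K) t
  haveI : IsScalarTower K (RatFunc K) Fb := Fermat.Agent.X0.RR7.isScalarTower_base_rat
  intro σ
  refine ⟨σ.restrictScalars K, ?_, fun x => rfl⟩
  show σ t = t
  have h := σ.commutes (RatFunc.X : RatFunc K)
  rwa [algebraMap_algRat_X htr] at h

end Galois

section Normal

variable [CharZero K] [IsAlgClosed Fb] {t : Fb}

/-- `Ω / RatFunc K` is normal if `Ω` is stable under the automorphisms of `Fb / K` fixing `t`. -/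
theorem normal_algRat (Ω : IntermediateField K Fb) (ht : t ∈ Ω) (htr : Transcendental K t)
    (halg : ∀ x : Fb, IsAlgebraic K⟮t⟯ x)
    (hstab : ∀ σ : Fb ≃ₐ[K] Fb, σ t = t → ∀ z ∈ Ω, σ z ∈ Ω) :
    letI := algRat (transcendental_mk Ω ht htr)
    Normal (RatFunc K) Ω := by
  letI := algRat (transcendental_mk Ω ht htr)
  letI := algRat htr
  haveI := isScalarTower_algRat Ω ht htr
  haveI := isGalois_algRat htr halg
  set f : Ω →ₐ[RatFunc K] Fb := IsScalarTower.toAlgHom (RatFunc K) Ω Fb with hf
  have hN : Normal (RatFunc K) f.fieldRange := by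
    rw [IntermediateField.normal_iff_forall_map_le']
    intro σ x hx
    obtain ⟨y, hy, rfl⟩ := hx
    obtain ⟨z, rfl⟩ := hy
    obtain ⟨τ, hτt, hτ⟩ := exists_restrict htr σ
    have h1 : τ (z : Fb) ∈ Ω := hstab τ hτt z z.2
    refine ⟨⟨τ (z : Fb), h1⟩, ?_⟩
    exact hτ _
  let g : Ω →ₐ[RatFunc K] f.fieldRange :=
    f.codRestrict f.fieldRange.toSubalgebra (fun x => ⟨x, rfl⟩)
  have hg : Function.Bijective g := by
    refine ⟨fun a b hab => ?_, fun y => ?_⟩
    · apply f.injective
      exact congrArg (fun u : f.fieldRange => (u : Fb)) hab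
    · obtain ⟨x, hx⟩ := y.2
      exact ⟨x, Subtype.ext hx⟩
  exact Normal.of_algEquiv (AlgEquiv.ofBijective g hg).symm

end Normal

section Main

variable [IsAlgClosed K] [CharZero K] [IsAlgClosed Fb]

/-- **(G1) + (G2) + (G3), consumer form, Galois case.**  `Ω ⊆ Fb` finitely generated over `K`,
stable under `{σ ∈ Aut(Fb / K) | σ t = t}`; if the decomposition groups (in `Gal(Fb / K(t))`) of
all nontrivial valuation subrings `O ⊇ K` of `Fb` not centred at `t = α` or `t = β` fix `Ω`
pointwise, then `Ω = K(w)`. -/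
theorem exists_generator_of_unram_outside (Ω : IntermediateField K Fb) (t : Fb) (ht : t ∈ Ω)
    (htr : Transcendental K t) (hFG : Ω.FG) (halg : ∀ x : Fb, IsAlgebraic K⟮t⟯ x)
    (hstab : ∀ σ : Fb ≃ₐ[K] Fb, σ t = t → ∀ z ∈ Ω, σ z ∈ Ω) (α β : K)
    (hunr : ∀ O : ValuationSubring Fb, O ≠ ⊤ → (∀ c : K, algebraMap K Fb c ∈ O) →
      ¬ O.valuation (t - algebraMap K Fb α) < 1 → ¬ O.valuation (t - algebraMap K Fb β) < 1 →
      DecompFixes K Fb Ω t O) :
    ∃ w ∈ Ω, ∀ z ∈ Ω, z ∈ K⟮w⟯ := by
  set t' : Ω := ⟨t, ht⟩ with ht'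
  have hx : IsSepVarS K t' (finrank K⟮t'⟯ Ω) := isSepVarS_of_fg Ω t' htr hFG (fun z _ => halg z)
  obtain ⟨P⟩ : Nonempty (Place K Ω) := (infinite_place hx).nonempty
  let _ := algPoly K t'
  let _ := algRat hx.transcendental
  have := isScalarTower_poly_rat hx.transcendental
  have := isScalarTower_base_poly (K := K) t'
  have := hx.finite
  have := hx.separable
  have := functionField_of_finite hx.transcendental
  have := isSeparable_ratFunc_of hx.transcendental
  have := Fermat.Agent.X0.RR7.isScalarTower_base_rat (K := K) (F := Ω)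
  let _ := algRat htr
  have := isScalarTower_algRat Ω ht htr
  have := isGalois_algRat htr halg
  have hN := normal_algRat Ω ht htr halg hstab
  have : IsGalois (RatFunc K) Ω := ⟨⟩
  have key : ∀ O : ValuationSubring Fb, O ≠ ⊤ →
      (∀ c : K, algebraMap (RatFunc K) Fb (RatFunc.C c) ∈ O) →
      ¬ O.valuation (algebraMap (RatFunc K) Fb (RatFunc.X - RatFunc.C α)) < 1 →
      ¬ O.valuation (algebraMap (RatFunc K) Fb (RatFunc.X - RatFunc.C β)) < 1 →
      ∀ σ ∈ O.decompositionSubgroup (RatFunc K), ∀ x : Ω,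
        σ (algebraMap Ω Fb x) = algebraMap Ω Fb x := by
    intro O hO hc hα hβ σ hσ x
    obtain ⟨τ, hτt, hτ⟩ := exists_restrict htr σ
    rw [← hτ]
    refine hunr O hO (fun c => ?_) ?_ ?_ τ hτt (fun y => ?_) _ x.2
    · rw [← algebraMap_algRat_C htr]; exact hc c
    · rwa [map_sub, algebraMap_algRat_X htr, algebraMap_algRat_C htr] at hα
    · rwa [map_sub, algebraMap_algRat_X htr, algebraMap_algRat_C htr] at hβ
    · rw [hτ]; exact Fermat.Agent.S05.apply_mem_iff_of_mem_decompositionSubgroup O hσ y
  obtain ⟨w, hw, -, -⟩ := UnramGenus.exists_generator_of_unram_outside K Ω (Fb := Fb) α β key P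
  exact ⟨w, w.2, fun z hz => mem_adjoin_of_adjoin_eq_top Ω hw hz⟩

/-- **(G0) + (G2), consumer form, Galois case.**  If the decomposition groups of all nontrivial
valuation subrings `O ⊇ K` of `Fb` fix `Ω` pointwise, then `Ω = K(t)`. -/
theorem mem_adjoin_of_forall_decomp (Ω : IntermediateField K Fb) (t : Fb) (ht : t ∈ Ω)
    (htr : Transcendental K t) (hFG : Ω.FG) (halg : ∀ x : Fb, IsAlgebraic K⟮t⟯ x)
    (hstab : ∀ σ : Fb ≃ₐ[K] Fb, σ t = t → ∀ z ∈ Ω, σ z ∈ Ω)
    (hunr : ∀ O : ValuationSubring Fb, O ≠ ⊤ → (∀ c : K, algebraMap K Fb c ∈ O) →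
      DecompFixes K Fb Ω t O) :
    ∀ z ∈ Ω, z ∈ K⟮t⟯ := by
  set t' : Ω := ⟨t, ht⟩ with ht'
  have hx : IsSepVarS K t' (finrank K⟮t'⟯ Ω) := isSepVarS_of_fg Ω t' htr hFG (fun z _ => halg z)
  let _ := algPoly K t'
  let _ := algRat hx.transcendental
  have := isScalarTower_poly_rat hx.transcendental
  have := isScalarTower_base_poly (K := K) t'
  have := hx.finite
  have := hx.separable
  have := functionField_of_finite hx.transcendental
  have := isSeparable_ratFunc_of hx.transcendental
  have := Fermat.Agent.X0.RR7.isScalarTower_base_rat (K := K) (F := Ω)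
  let _ := algRat htr
  have := isScalarTower_algRat Ω ht htr
  have := isGalois_algRat htr halg
  have hN := normal_algRat Ω ht htr halg hstab
  have : IsGalois (RatFunc K) Ω := ⟨⟩
  have key : ∀ O : ValuationSubring Fb, O ≠ ⊤ →
      (∀ c : K, algebraMap (RatFunc K) Fb (RatFunc.C c) ∈ O) →
      ∀ σ ∈ O.decompositionSubgroup (RatFunc K), ∀ x : Ω,
        σ (algebraMap Ω Fb x) = algebraMap Ω Fb x := by
    intro O hO hc σ hσ x
    obtain ⟨τ, hτt, hτ⟩ := exists_restrict htr σ
    rw [← hτ]
    refine hunr O hO (fun c => ?_) τ hτt (fun y => ?_) _ x.2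
    · rw [← algebraMap_algRat_C htr]; exact hc c
    · rw [hτ]; exact Fermat.Agent.S05.apply_mem_iff_of_mem_decompositionSubgroup O hσ y
  intro z hz
  obtain ⟨r, hr⟩ := UnramGenus.exists_algebraMap_eq_of_forall_decomposition_trivial K Ω (Fb := Fb)
    key (⟨z, hz⟩ : Ω)
  have h1 : algebraMap (RatFunc K) Fb r = z := by
    rw [IsScalarTower.algebraMap_apply (RatFunc K) Ω Fb, hr]
    rfl
  rw [← h1]
  exact algebraMap_algRat_mem htr r

end Main

end Fermat.Agent.SW.FFG.Gal
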